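import Fermat.Agent.GrahamPartition.Table
import Mathlib.Algebra.BigOperators.Field
import Mathlib.Algebra.BigOperators.Ring.Finset
import Mathlib.Algebra.Order.BigOperators.Group.Finset
import Mathlib.Algebra.Order.Field.Basic
import Mathlib.Data.Rat.Cast.Order
import Mathlib.Data.Nat.Cast.Field
import Mathlib.Tactic.FieldSimp
import Mathlib.Tactic.NormNum
import Mathlib.Tactic.Positivity
import Mathlib.Tactic.Ring

/-!
# Graham's theorem on partitions with reciprocals summing to one

A partition of `m` gives partitions of `2 m + 2` (double and adjoin `2`) and `2 m + 179` (double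
and adjoin `3, 7, 78, 91`, whose reciprocals sum to `1/2`), so the table of `78, …, 334` starts an
induction. A pruned search shows that `77` has no such partition.
-/

set_option autoImplicit false

namespace FA.GrahamPartition

open Finset

/-- A partition of `n` into distinct parts other than `1` and `39` with reciprocal sum one. -/
def HasPartition (n : ℕ) : Prop :=
  ∃ s : Finset ℕ, (∀ x ∈ s, 2 ≤ x ∧ x ≠ 39) ∧ ∑ x ∈ s, x = n ∧ ∑ x ∈ s, (1 : ℚ) / x = 1

theorem hasPartition_table {n : ℕ} (h1 : 78 ≤ n) (h2 : n < 335) : HasPartition n := by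
  have hmem : n ∈ partitionTable.map List.sum := by
    rw [partitionTable_sum, List.mem_range'_1]
    omega
  obtain ⟨l, hl, hsum⟩ := List.mem_map.1 hmem
  obtain ⟨hnd, h0, h1', h39, hrec⟩ := partitionTable_valid l hl
  refine ⟨l.toFinset, fun x hx => ?_, ?_, ?_⟩
  · rw [List.mem_toFinset] at hx
    have a0 : x ≠ 0 := fun h => h0 (h ▸ hx)
    have a1 : x ≠ 1 := fun h => h1' (h ▸ hx)
    exact ⟨by omega, fun h => h39 (h ▸ hx)⟩
  · rw [List.sum_toFinset _ hnd]
    simpa using hsum
  · have hP : (l.prod : ℚ) ≠ 0 := Nat.cast_ne_zero.2 (List.prod_ne_zero h0)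
    have hrec' : ∑ x ∈ l.toFinset, l.prod / x = l.prod := by
      rw [List.sum_toFinset _ hnd]; exact hrec
    rw [← mul_left_inj' hP, one_mul, sum_mul]
    conv_rhs => rw [← hrec', Nat.cast_sum]
    refine sum_congr rfl fun x hx => ?_
    rw [List.mem_toFinset] at hx
    rw [Nat.cast_div (List.dvd_prod hx) (Nat.cast_ne_zero.2 fun h : x = 0 => h0 (h ▸ hx))]
    ring

theorem sum_double (s : Finset ℕ) : ∑ x ∈ s.image (2 * ·), x = 2 * ∑ x ∈ s, x := by
  rw [sum_image fun x _ y _ h => Nat.eq_of_mul_eq_mul_left two_pos h, mul_sum]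

theorem sum_double_inv (s : Finset ℕ) :
    ∑ x ∈ s.image (fun y : ℕ => 2 * y), (1 : ℚ) / x = (∑ x ∈ s, (1 : ℚ) / x) / 2 := by
  rw [sum_image fun x _ y _ h => Nat.eq_of_mul_eq_mul_left two_pos h, sum_div]
  exact sum_congr rfl fun x _ => by push_cast; ring

theorem hasPartition_even {m : ℕ} (h : HasPartition m) : HasPartition (2 * m + 2) := by
  obtain ⟨s, hs, hsum, hinv⟩ := h
  have hd : Disjoint ({2} : Finset ℕ) (s.image (2 * ·)) := disjoint_singleton_left.2 fun h => by
    obtain ⟨y, hy, he⟩ := mem_image.1 h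
    have := hs y hy
    omega
  refine ⟨{2} ∪ s.image (2 * ·), fun x hx => ?_, ?_, ?_⟩
  · rcases mem_union.1 hx with h | h
    · rw [mem_singleton.1 h]; omega
    · obtain ⟨y, hy, rfl⟩ := mem_image.1 h
      have := hs y hy
      omega
  · rw [sum_union hd, sum_double, hsum, sum_singleton]; omega
  · rw [sum_union hd, sum_double_inv, hinv, sum_singleton]; norm_num

theorem hasPartition_odd {m : ℕ} (h : HasPartition m) : HasPartition (2 * m + 179) := by
  obtain ⟨s, hs, hsum, hinv⟩ := h
  have hd : Disjoint ({3, 7, 78, 91} : Finset ℕ) (s.image (2 * ·)) :=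
    disjoint_right.2 fun x hx hx' => by
      obtain ⟨y, hy, rfl⟩ := mem_image.1 hx
      have := hs y hy
      simp only [mem_insert, mem_singleton] at hx'
      omega
  refine ⟨{3, 7, 78, 91} ∪ s.image (2 * ·), fun x hx => ?_, ?_, ?_⟩
  · rcases mem_union.1 hx with h | h
    · simp only [mem_insert, mem_singleton] at h
      omega
    · obtain ⟨y, hy, rfl⟩ := mem_image.1 h
      have := hs y hy
      omega
  · rw [sum_union hd, sum_double, hsum]
    norm_num
    omega
  · rw [sum_union hd, sum_double_inv, hinv]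
    norm_num

theorem hasPartition_all (n : ℕ) (hn : 77 < n) : HasPartition n := by
  induction n using Nat.strong_induction_on with
  | _ n ih =>
    rcases lt_or_ge n 335 with h | h
    · exact hasPartition_table (by omega) h
    obtain ⟨m, hm⟩ | ⟨m, hm⟩ : (∃ m, n = 2 * m + 2) ∨ ∃ m, n = 2 * m + 179 := by
      rcases Nat.even_or_odd' n with ⟨k, hk | hk⟩
      · exact Or.inl ⟨k - 1, by omega⟩
      · exact Or.inr ⟨k - 89, by omega⟩
    · exact hm ▸ hasPartition_even (ih m (by omega) (by omega))
    · exact hm ▸ hasPartition_odd (ih m (by omega) (by omega))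

/-- May some set of numbers `≥ a` with sum `r` have reciprocal sum `u / v`? -/
def searchPartition : ℕ → ℕ → ℕ → ℕ → ℕ → Bool
  | 0, _, _, _, _ => true
  | k + 1, a, r, u, v =>
    if u = 0 then r == 0
    else if a ≤ r ∧ u * a * a ≤ r * v then
      ((decide (v ≤ u * a) && searchPartition k (a + 1) (r - a) (u * a - v) (v * a)) ||
        searchPartition k (a + 1) r u v)
    else false

theorem searchPartition_complete : ∀ (k a r u v : ℕ) (s : Finset ℕ), 0 < a → 0 < v →
    (∀ x ∈ s, a ≤ x) → ∑ x ∈ s, x = r → ∑ x ∈ s, (1 : ℚ) / x = (u : ℚ) / v →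
      searchPartition k a r u v = true
  | 0, _, _, _, _, _, _, _, _, _, _ => rfl
  | k + 1, a, r, u, v, s, ha, hv, hs, hsum, hinv => by
    have hvQ : (0 : ℚ) < v := Nat.cast_pos.2 hv
    have hpos : ∀ x ∈ s, (0 : ℚ) < 1 / (x : ℚ) := fun x hx =>
      one_div_pos.2 (Nat.cast_pos.2 (lt_of_lt_of_le ha (hs x hx)))
    rw [searchPartition]
    rcases Nat.eq_zero_or_pos u with rfl | hu
    · have hsE : s = ∅ := by
        by_contra hne
        have := sum_pos hpos (nonempty_iff_ne_empty.2 hne)
        rw [hinv, Nat.cast_zero, zero_div] at this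
        exact lt_irrefl _ this
      subst hsE
      simp [← hsum]
    rw [if_neg hu.ne']
    obtain ⟨x₀, hx₀⟩ : s.Nonempty := by
      rw [nonempty_iff_ne_empty]
      rintro rfl
      simp [eq_comm, hu.ne', hv.ne'] at hinv
    have har : a ≤ r := (hs x₀ hx₀).trans
      (hsum ▸ single_le_sum (f := fun y => y) (fun y _ => Nat.zero_le y) hx₀)
    have haQ : (0 : ℚ) < a := Nat.cast_pos.2 ha
    have hbound : u * a * a ≤ r * v := by
      have h1 : (u : ℚ) / v ≤ (r : ℚ) / ((a : ℚ) * a) := by
        rw [← hinv, ← hsum, Nat.cast_sum, sum_div]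
        refine sum_le_sum fun x hx => ?_
        have hax : (a : ℚ) ≤ x := Nat.cast_le.2 (hs x hx)
        rw [div_le_div_iff₀ (haQ.trans_le hax) (mul_pos haQ haQ), one_mul]
        exact mul_le_mul hax hax haQ.le (haQ.le.trans hax)
      rw [div_le_div_iff₀ hvQ (mul_pos haQ haQ)] at h1
      rw [mul_assoc]
      exact_mod_cast h1
    rw [if_pos ⟨har, hbound⟩, Bool.or_eq_true, Bool.and_eq_true, decide_eq_true_eq]
    by_cases has : a ∈ s
    · have h1 : (1 : ℚ) / a ≤ (u : ℚ) / v :=
        hinv ▸ single_le_sum (f := fun y : ℕ => (1 : ℚ) / y) (fun y hy => (hpos y hy).le) has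
      rw [div_le_div_iff₀ haQ hvQ, one_mul] at h1
      have hle : v ≤ u * a := by exact_mod_cast h1
      refine Or.inl ⟨hle, searchPartition_complete k (a + 1) (r - a) (u * a - v) (v * a)
        (s.erase a) (Nat.succ_pos a) (Nat.mul_pos hv ha) (fun x hx => ?_) ?_ ?_⟩
      · obtain ⟨hne, hx⟩ := mem_erase.1 hx
        have := hs x hx
        omega
      · have := add_sum_erase s (fun y => y) has
        omega
      · rw [sum_erase_eq_sub has, hinv, Nat.cast_sub hle, Nat.cast_mul, Nat.cast_mul]
        field_simp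
    · refine Or.inr (searchPartition_complete k (a + 1) r u v s (Nat.succ_pos a) hv
        (fun x hx => ?_) hsum hinv)
      have := hs x hx
      have : x ≠ a := fun h => has (h ▸ hx)
      omega

theorem searchPartition_seventySeven : searchPartition 100 2 77 1 1 = false := by
  decide +kernel

theorem no_partition_seventySeven (s : Finset ℕ) (hs : ∀ x ∈ s, 0 < x)
    (hsum : ∑ x ∈ s, x = 77) : ∑ x ∈ s, (1 : ℚ) / x ≠ 1 := fun hinv => by
  by_cases h1 : 1 ∈ s
  · have h2 : ∑ x ∈ s.erase 1, (1 : ℚ) / x = 0 := by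
      rw [sum_erase_eq_sub h1, hinv]; norm_num
    have h3 : s.erase 1 = ∅ := by
      by_contra hne
      have := sum_pos (s := s.erase 1) (f := fun x : ℕ => (1 : ℚ) / x)
        (fun x hx => one_div_pos.2 (Nat.cast_pos.2 (hs x (mem_of_mem_erase hx))))
        (nonempty_iff_ne_empty.2 hne)
      rw [h2] at this
      exact lt_irrefl _ this
    have := add_sum_erase s (fun y => y) h1
    simp [h3] at this
    omega
  · have := searchPartition_complete 100 2 77 1 1 s two_pos one_pos (fun x hx => by
      have := hs x hx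
      have : x ≠ 1 := fun h => h1 (h ▸ hx)
      omega) hsum (by rw [hinv]; norm_num)
    rw [searchPartition_seventySeven] at this
    simp at this

end FA.GrahamPartition
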